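import Fermat.Agent.S34x.Top.H19_HcUnip

/-!
# S34 (W10), bridge (helper19): (SS) on `Pic⁰` from the Kummer statement on functions

`g` a semilinear automorphism of a function field `F / K` (in the application: the action of an
inertia element `τ` on the coefficients of the `q`-expansions of the modular functions of level
`N` over `ℚ̄`).  For `f ≠ 0` put `secondDiff g f := g (g f) * f / (g f) ^ 2`; if `div f = m D`,
then `div (secondDiff g f) = m ((g - 1) ^ 2 D)`.

* `h19b_ord_secondDiff`   : the orders of `secondDiff g f`;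
* `h19b_pic0_ss`          : if `secondDiff g f` is an `m`-th power for every `f` whose orders are
                            all divisible by `m`, then `(g - 1) ^ 2` kills the `m`-torsion of
                            `Pic⁰`;
* `StKumSS N p τ`         : the Kummer form of (SS) at `τ` for the modular function field, at all
                            exponents `p ^ n`;
* `h19b_stSSAt_of_kum`    : `StKumSS N p τ → StSSAt N p τ`;
* `h19b_stSS_of_kum`      : (SS) at `q` from the Kummer form at every inertia element over `q`.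
-/

set_option autoImplicit false
set_option linter.unusedSectionVars false

open AlgebraicCurve ModularCurve

noncomputable section

namespace Fermat.Agent.S34x.Top.H19

local notation "GQ" => (AlgebraicClosure ℚ ≃ₐ[ℚ] AlgebraicClosure ℚ)

section Abstract

variable {K F : Type*} [Field K] [Field F] [Algebra K F]

/-- The Kummer function of `(g - 1) ^ 2`. -/
def h19bSecondDiff (g : SemilinearAut K F) (f : F) : F := g • g • f * f / (g • f) ^ 2

theorem h19b_smul_ne_zero (g : SemilinearAut K F) {f : F} (hf : f ≠ 0) : g • f ≠ 0 := by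
  intro h
  apply hf
  have h1 : g⁻¹ • g • f = g⁻¹ • (0 : F) := by rw [h]
  rwa [inv_smul_smul, smul_zero] at h1

theorem h19b_secondDiff_ne_zero (g : SemilinearAut K F) {f : F} (hf : f ≠ 0) :
    h19bSecondDiff g f ≠ 0 := by
  unfold h19bSecondDiff
  exact div_ne_zero (mul_ne_zero (h19b_smul_ne_zero g (h19b_smul_ne_zero g hf)) hf)
    (pow_ne_zero 2 (h19b_smul_ne_zero g hf))

/-- The order of `g • f` at `P` is the order of `f` at `g⁻¹ • P`. -/
theorem h19b_ord_smul (g : SemilinearAut K F) (P : Place K F) (f : F) :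
    P.ord (g • f) = (g⁻¹ • P).ord f := by
  have h := SemilinearAut.ord_smul g (g⁻¹ • P) f
  rwa [smul_inv_smul] at h

/-- The orders of the second difference. -/
theorem h19b_ord_secondDiff (g : SemilinearAut K F) {f : F} (hf : f ≠ 0) (P : Place K F) :
    P.ord (h19bSecondDiff g f) =
      (g⁻¹ • g⁻¹ • P).ord f - 2 * (g⁻¹ • P).ord f + P.ord f := by
  have h1 := h19b_smul_ne_zero g hf
  have h2 := h19b_smul_ne_zero g h1
  unfold h19bSecondDiff
  rw [div_eq_mul_inv, P.ord_mul (mul_ne_zero h2 hf) (inv_ne_zero (pow_ne_zero 2 h1)),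
    P.ord_mul h2 hf, P.ord_inv, pow_two, P.ord_mul h1 h1, h19b_ord_smul g P (g • f),
    h19b_ord_smul g (g⁻¹ • P) f, h19b_ord_smul g P f]
  ring

/-- **The bridge, abstract form**: if the second difference of every function whose orders are
divisible by `m` is an `m`-th power, then `(g - 1) ^ 2` kills the `m`-torsion of `Pic⁰`. -/
theorem h19b_pic0_ss (g : SemilinearAut K F) (m : ℕ) (hm : m ≠ 0)
    (hkum : ∀ f : F, f ≠ 0 → (∀ P : Place K F, (m : ℤ) ∣ P.ord f) →
      ∃ u : F, u ^ m = h19bSecondDiff g f)
    (x : Pic0 K F) (hx : m • x = 0) : g • g • x - 2 • g • x + x = 0 := by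
  obtain ⟨D, rfl⟩ := Pic0.mk_surjective x
  -- `m • D` is principal
  have hmD : m • (D : Divisor K F) ∈ Divisor.principal (K := K) (F := F) := by
    have h1 : Pic0.mk (m • D) = (0 : Pic0 K F) := by
      rw [← hx]; rfl
    have := (QuotientAddGroup.eq_zero_iff _).mp h1
    simpa [AddSubgroup.mem_addSubgroupOf] using this
  obtain ⟨f, hf0, hf⟩ := hmD
  have hdiv : ∀ P : Place K F, (m : ℤ) ∣ P.ord f := by
    intro P
    rw [← hf P, Finsupp.smul_apply, nsmul_eq_mul]
    exact dvd_mul_right _ _
  obtain ⟨u, hu⟩ := hkum f hf0 hdiv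
  have hw0 := h19b_secondDiff_ne_zero g hf0
  have hu0 : u ≠ 0 := by
    intro h
    rw [h, zero_pow hm] at hu
    exact hw0 hu.symm
  -- the divisor of `u`
  have hDP : ∀ P : Place K F, (m : ℤ) * (D : Divisor K F) P = P.ord f := by
    intro P
    rw [← hf P, Finsupp.smul_apply, nsmul_eq_mul]
  have hm0 : (m : ℤ) ≠ 0 := by exact_mod_cast hm
  have key : ∀ P : Place K F,
      (g • g • (D : Divisor K F) - 2 • g • (D : Divisor K F) + (D : Divisor K F)) P =
        P.ord u := by
    intro P
    have h1 : P.ord (h19bSecondDiff g f) = (m : ℤ) * P.ord u := by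
      rw [← hu, ← zpow_natCast, P.ord_zpow]
    rw [h19b_ord_secondDiff g hf0 P, ← hDP, ← hDP, ← hDP] at h1
    have h2 : (g • g • (D : Divisor K F) - 2 • g • (D : Divisor K F) + (D : Divisor K F)) P =
        (D : Divisor K F) (g⁻¹ • g⁻¹ • P) - 2 * (D : Divisor K F) (g⁻¹ • P) +
          (D : Divisor K F) P := by
      rw [Finsupp.add_apply, Finsupp.sub_apply, Finsupp.smul_apply,
        SemilinearAut.divisor_smul_apply, SemilinearAut.divisor_smul_apply,
        SemilinearAut.divisor_smul_apply, nsmul_eq_mul]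
      norm_num
    rw [h2]
    apply mul_left_cancel₀ hm0
    rw [← h1]
    ring
  -- conclusion in `Pic⁰`
  have e1 : g • g • Pic0.mk D - 2 • g • Pic0.mk D + Pic0.mk D =
      Pic0.mk (SemilinearAut.degZeroSMulHom g (SemilinearAut.degZeroSMulHom g D) -
        2 • SemilinearAut.degZeroSMulHom g D + D) := by
    rw [SemilinearAut.pic0_smul_mk, SemilinearAut.pic0_smul_mk]
    rfl
  rw [e1]
  refine (QuotientAddGroup.eq_zero_iff _).mpr ?_
  rw [AddSubgroup.mem_addSubgroupOf]
  refine ⟨u, hu0, fun P => ?_⟩
  rw [← key P]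
  rfl

end Abstract

section Modular

variable (N p : ℕ)

/-- **(SS), Kummer form, at `τ`**: for every modular function `f ≠ 0` of level `N` over `ℚ̄`
all of whose orders are divisible by `p ^ n`, the second difference
`τ (τ f) * f / (τ f) ^ 2` (`τ` acting on the coefficients of the `q`-expansion) is a
`p ^ n`-th power of a modular function of level `N`. -/
def StKumSS (τ : GQ) : Prop :=
  ∀ (n : ℕ) (f : modularFunctionFieldBar N), f ≠ 0 →
    (∀ P : Place (AlgebraicClosure ℚ) (modularFunctionFieldBar N),
      ((p ^ n : ℕ) : ℤ) ∣ P.ord f) →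
    ∃ u : modularFunctionFieldBar N,
      u ^ (p ^ n) = arithmeticRingAut (modularFunctionFieldFull N) τ
          (arithmeticRingAut (modularFunctionFieldFull N) τ f) * f /
        (arithmeticRingAut (modularFunctionFieldFull N) τ f) ^ 2

variable {N p}

/-- **The bridge**: the Kummer form of (SS) at `τ` implies (SS) at `τ` on `J₀(N)`. -/
theorem h19b_stSSAt_of_kum [NeZero N] (hp : p ≠ 0) (τ : GQ) (h : StKumSS N p τ) :
    StSSAt N p τ := by
  refine h19u_stSSAt_of_exact τ fun x hx => ?_
  obtain ⟨n, hn⟩ := hx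
  exact h19b_pic0_ss (arithmeticGalois (modularFunctionFieldFull N) τ) (p ^ n)
    (pow_ne_zero n hp) (fun f hf hdiv => h n f hf hdiv) x hn

/-- (SS) at `q` from the Kummer form at every inertia element over `q`. -/
theorem h19b_stSS_of_kum [NeZero N] (hp : p ≠ 0) (q : ℕ)
    (h : ∀ B : ValuationSubring (AlgebraicClosure ℚ), B.LiesOverPrime q →
      ∀ τ ∈ B.inertiaSubgroupIn ℚ, StKumSS N p τ) : StSS N p q :=
  fun B hB τ hτ => h19b_stSSAt_of_kum hp τ (h B hB τ hτ)

end Modular

end Fermat.Agent.S34x.Top.H19
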