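import Fermat.Agent.S34x.Top.H19_Unip
import Fermat.Agent.S31x.Hc.H19_HC

/-!
# S34 (W10), top (helper19): the Hecke congruence (HC-unip) from (SS), and S34 from (SS)

`τ` an element of the absolute Galois group which fixes the `p`-power roots of unity.

* `StSSAt N p τ` : **(SS) at `τ`, bounded-exponent form**: there is `c` with
  `p ^ c • ((τ - 1) ^ 2 x) = 0` for every `p`-power torsion class `x` of `J₀(N)`
  (`c = 0` is the classical statement; a bounded `c` is what a descent from an auxiliary level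
  delivers);
* `StSS N p q`   : (SS) at every inertia element over `q`;
* `h19u_stSSAt_of_exact`, `h19u_stSSAt_of_two`, `h19u_stSSAt_of_nsmul` : the exact form, the
  form `(τ - 1)((τ - 1) x) = 0` and the form with an arbitrary non-zero integer `d` in place of
  `p ^ c` all imply `StSSAt N p τ`;
* `h19u_stHC_of` : `StSSAt N p τ → StHCUnip N p S τ`, from `StSpec N p`, (KH-AN) and the matrix
  model (all on main);
* `h19u_s34_of_ss` : the frozen statement S34 from `StSS N p q` (`q ≠ p`).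
-/

set_option autoImplicit false
set_option linter.style.haveILetI false
set_option linter.unusedSectionVars false
set_option synthInstance.maxHeartbeats 400000
set_option maxHeartbeats 1000000

open ModularCurve ModularCurve.Period AlgebraicCurve CongruenceSubgroup Polynomial Matrix
open Fermat.Agent.S22 Fermat.Agent.S16x.Low.H5
open Fermat.Agent.S42x.Kum.H12
open Fermat.Agent.S31x.Hc.H19 Fermat.Agent.S30x.GALn.H5
open scoped MatrixGroups

noncomputable section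

namespace Fermat.Agent.S34x.Top.H19

local notation "GQ" => (AlgebraicClosure ℚ ≃ₐ[ℚ] AlgebraicClosure ℚ)

/-- **(SS) at one element `τ`**, bounded-exponent form: `p ^ c` kills `(τ - 1) ^ 2` on the
`p`-power torsion of `J₀(N)`. -/
def StSSAt (N p : ℕ) [NeZero N] (τ : GQ) : Prop :=
  ∃ c : ℕ, ∀ x : JZero N, (∃ n : ℕ, p ^ n • x = 0) →
    p ^ c • (τ • τ • x - 2 • τ • x + x) = 0

/-- **(SS) at the prime `q`**: (SS) at every element of every inertia group over `q`. -/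
def StSS (N p q : ℕ) [NeZero N] : Prop :=
  ∀ B : ValuationSubring (AlgebraicClosure ℚ), B.LiesOverPrime q →
    ∀ τ ∈ B.inertiaSubgroupIn ℚ, StSSAt N p τ

/-- The exact form of (SS) (no exponent) implies the bounded-exponent form. -/
theorem h19u_stSSAt_of_exact {N p : ℕ} [NeZero N] (τ : GQ)
    (h : ∀ x : JZero N, (∃ n : ℕ, p ^ n • x = 0) → τ • τ • x - 2 • τ • x + x = 0) :
    StSSAt N p τ :=
  ⟨0, fun x hx => by rw [pow_zero, one_smul]; exact h x hx⟩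

/-- The two-element form `(τ' - 1)(τ - 1) = 0` implies (SS) at `τ`. -/
theorem h19u_stSSAt_of_two {N p : ℕ} [NeZero N] (τ : GQ)
    (h : ∀ x : JZero N, (∃ n : ℕ, p ^ n • x = 0) → τ • (τ • x - x) - (τ • x - x) = 0) :
    StSSAt N p τ := by
  refine h19u_stSSAt_of_exact τ fun x hx => ?_
  have h1 := h x hx
  have e : τ • τ • x - 2 • τ • x + x = τ • (τ • x - x) - (τ • x - x) := by
    rw [smul_sub, two_smul]
    abel
  rw [e, h1]

/-- An element killed by two coprime integers is zero. -/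
theorem h19u_eq_zero_of_coprime {J : Type*} [AddCommGroup J] (y : J) {a b : ℕ}
    (hab : Nat.Coprime a b) (ha : a • y = 0) (hb : b • y = 0) : y = 0 := by
  have h1 := Nat.gcd_eq_gcd_ab a b
  rw [hab.gcd_eq_one] at h1
  have h2 : ((1 : ℕ) : ℤ) • y = 0 := by
    rw [h1, add_smul, mul_comm (a : ℤ), mul_comm (b : ℤ), mul_smul, mul_smul, natCast_zsmul,
      natCast_zsmul, ha, hb, smul_zero, smul_zero, add_zero]
  simpa using h2

/-- (SS) at `τ` with an arbitrary non-zero integer `d` in place of a power of `p` (what a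
descent along a degeneracy map of degree `d` delivers). -/
theorem h19u_stSSAt_of_nsmul {N p : ℕ} [NeZero N] (hp : p.Prime) (τ : GQ) (d : ℕ) (hd : d ≠ 0)
    (h : ∀ x : JZero N, (∃ n : ℕ, p ^ n • x = 0) → d • (τ • τ • x - 2 • τ • x + x) = 0) :
    StSSAt N p τ := by
  obtain ⟨c, d', hd', rfl⟩ := Nat.exists_eq_pow_mul_and_not_dvd hd p hp.ne_one
  refine ⟨c, fun x hx => ?_⟩
  obtain ⟨n, hn⟩ := hx
  set y : JZero N := τ • τ • x - 2 • τ • x + x with hy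
  have hny : p ^ n • y = 0 := by
    have e1 : p ^ n • (τ • x) = 0 := by
      rw [← Fermat.Agent.S42x.Asm.H5.h5_smul_nsmul, hn, Fermat.Agent.S42x.Asm.H5.h5_smul_zero]
    have e2 : p ^ n • (τ • τ • x) = 0 := by
      rw [← Fermat.Agent.S42x.Asm.H5.h5_smul_nsmul, e1, Fermat.Agent.S42x.Asm.H5.h5_smul_zero]
    rw [hy, nsmul_add, nsmul_sub, e2, smul_comm, e1, hn]
    simp
  have hcop : Nat.Coprime d' (p ^ n) :=
    ((Nat.Prime.coprime_iff_not_dvd hp).mpr hd').symm.pow_right n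
  refine h19u_eq_zero_of_coprime (p ^ c • y) hcop ?_ ?_
  · rw [← mul_smul, mul_comm]
    exact h x ⟨n, hn⟩
  · rw [smul_comm, hny, smul_zero]

section

variable {N p : ℕ} {S : Finset ℕ}

/-- **(HC-unip) from (SS)**: the Hecke congruence at `τ`. -/
theorem h19u_stHC_of [NeZero N] (hp : p.Prime) (hpS : p ∈ S)
    (hSpec : Fermat.Agent.S37x.Asm.StSpec N p)
    (e : AlgebraicClosure ℚ →+* ℂ) (ζ : ℕ → ℂ) (hζ : ∀ n, IsPrimitiveRoot (ζ n) (p ^ n))
    (han : ∀ n, Fermat.Agent.S42x.Heq.H23.StHeckeAn N (p ^ n) e (ζ n))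
    (hmat : H19MatModel N p S) (τ : GQ)
    (hroot : ∀ (n : ℕ) (z : AlgebraicClosure ℚ), z ^ (p ^ n) = 1 → τ z = z)
    (hSS : StSSAt N p τ) : StHCUnip N p S τ := by
  classical
  obtain ⟨r, b, t, c, hbpar, hsat, hcos, hfaith⟩ := hmat
  obtain ⟨c', hc'⟩ := hSS
  intro m
  set M : ℕ := m + c + c' with hM
  have hpn : p ^ M ≠ 0 := pow_ne_zero _ hp.ne_zero
  have hζ0 : ζ M ≠ 0 := (hζ M).ne_zero hpn
  -- the Kummer classes of the basis
  have hex : ∀ j, ∃ x : JZero N, KumRel N (p ^ M) e (ζ M) x (b j) := fun j =>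
    Fermat.Agent.S42x.Kum.H8.stKEx_all N (p ^ M) hpn e (ζ M) (hζ M).pow_eq_one (b j) (hbpar j)
  choose x hx using hex
  have hxn : ∀ j, p ^ M • x j = 0 := fun j => kumRel_torsion (hx j)
  -- the number field
  obtain ⟨K, hK, -, -, -, -, hrel⟩ :=
    h5n_level hSpec hp.ne_zero x (fun j => ⟨M, hxn j⟩) M
      (⊥ : IntermediateField ℚ (AlgebraicClosure ℚ))
  refine ⟨K, hK, ?_⟩
  intro ℓ hℓ hℓN hℓS A σ k hA hσ hτ
  have hℓNp : ¬ ℓ ∣ N * p := by
    intro hdvd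
    rcases (Nat.Prime.dvd_mul hℓ).mp hdvd with h | h
    · exact hℓN h
    · have : ℓ = p := (Nat.prime_dvd_prime_iff_eq hℓ hp).mp h
      exact hℓS (by rw [this]; exact_mod_cast hpS)
  have hpow : ¬ ℓ ∣ N * p ^ M := by
    intro hdvd
    rcases (Nat.Prime.dvd_mul hℓ).mp hdvd with h1 | h1
    · exact hℓNp (Dvd.dvd.mul_right h1 p)
    · exact hℓNp (Dvd.dvd.mul_left (hℓ.dvd_of_dvd_pow h1) N)
  obtain ⟨hz, hD⟩ := hrel τ ℓ hℓ hℓNp A hA σ hσ k hτ
  -- `ℓ ^ k ≡ 1` modulo `p ^ M`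
  obtain ⟨ζ₀, hζ₀⟩ := h5n_exists_zeta (p ^ M) hpn
  have hmod : ℓ ^ k ≡ 1 [MOD p ^ M] := by
    refine h5n_modEq_of_pow_eq hpn hζ₀ ?_
    rw [← hz ζ₀ hζ₀.pow_eq_one, hroot M ζ₀ hζ₀.pow_eq_one, pow_one]
  -- the `J`-side: `p ^ c' • (D_k(T_ℓ) x_j - 2 x_j) = 0`
  have hJ0 : ∀ j, aeval (heckeOperatorBar N ⟨ℓ, hℓ⟩) (dickson 1 (ℓ : ℤ) k) (x j) =
      τ • x j + τ⁻¹ • x j := by
    intro j
    have h1 := hD 1 j
    rw [one_smul] at h1
    have hy : p ^ M • (τ⁻¹ • x j) = 0 := by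
      rw [← Fermat.Agent.S42x.Asm.H5.h5_smul_nsmul, hxn j, Fermat.Agent.S42x.Asm.H5.h5_smul_zero]
    rw [← h1, h5n_nsmul_congr hmod _ hy, one_smul]
  have hJ1 : ∀ j, p ^ c' • (τ • x j + τ⁻¹ • x j - 2 • x j) = 0 := by
    intro j
    have hy : ∃ n : ℕ, p ^ n • (τ⁻¹ • x j) = 0 :=
      ⟨M, by rw [← Fermat.Agent.S42x.Asm.H5.h5_smul_nsmul, hxn j,
        Fermat.Agent.S42x.Asm.H5.h5_smul_zero]⟩
    have h1 := hc' (τ⁻¹ • x j) hy
    have e1 : τ • τ⁻¹ • x j = x j := by rw [← mul_smul, mul_inv_cancel, one_smul]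
    rw [e1] at h1
    have e2 : τ • x j + τ⁻¹ • x j - 2 • x j = τ • x j - 2 • x j + τ⁻¹ • x j := by abel
    rw [e2]
    exact h1
  have hJ : ∀ j, aeval (heckeOperatorBar N ⟨ℓ, hℓ⟩)
        (C ((p : ℤ) ^ c') * dickson 1 (ℓ : ℤ) k) (x j) =
      aeval (heckeOperatorBar N ⟨ℓ, hℓ⟩) (C ((p : ℤ) ^ c' * 2)) (x j) := by
    intro j
    have h1 := hJ1 j
    rw [← hJ0 j, nsmul_sub, sub_eq_zero] at h1
    have e1 : aeval (heckeOperatorBar N ⟨ℓ, hℓ⟩) (C ((p : ℤ) ^ c') * dickson 1 (ℓ : ℤ) k) (x j) =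
        p ^ c' • aeval (heckeOperatorBar N ⟨ℓ, hℓ⟩) (dickson 1 (ℓ : ℤ) k) (x j) := by
      rw [map_mul, aeval_C, Module.End.mul_apply, Module.algebraMap_end_apply, ← Nat.cast_pow,
        natCast_zsmul]
    have e2 : aeval (heckeOperatorBar N ⟨ℓ, hℓ⟩) (C ((p : ℤ) ^ c' * 2)) (x j) =
        p ^ c' • 2 • x j := by
      rw [aeval_C, Module.algebraMap_end_apply, mul_smul, ← Nat.cast_pow, natCast_zsmul]
      rfl
    rw [e1, e2, h1]
  -- the relation
  let Rel : JZero N → (Fin r → ℤ) → Prop := fun y z =>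
    KumRel N (p ^ M) e (ζ M) y (∑ j, z j • b j)
  have hzero : Rel 0 0 := by
    show KumRel N (p ^ M) e (ζ M) 0 (∑ j, (0 : Fin r → ℤ) j • b j)
    have h0 : (∑ j, (0 : Fin r → ℤ) j • b j) = 0 := by simp
    rw [h0]
    exact kumRel_zero
  have hadd : ∀ y y' z z', Rel y z → Rel y' z' → Rel (y + y') (z + z') := by
    intro y y' z z' h h'
    show KumRel N (p ^ M) e (ζ M) (y + y') (∑ j, (z + z') j • b j)
    have h0 : (∑ j, (z + z') j • b j) = (∑ j, z j • b j) + ∑ j, z' j • b j := by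
      rw [← Finset.sum_add_distrib]
      exact Finset.sum_congr rfl fun j _ => by rw [Pi.add_apply, add_smul]
    rw [h0]
    exact kumRel_add hζ0 h h'
  have hneg : ∀ y z, Rel y z → Rel (-y) (-z) := by
    intro y z h
    show KumRel N (p ^ M) e (ζ M) (-y) (∑ j, (-z) j • b j)
    have h0 : (∑ j, (-z) j • b j) = -∑ j, z j • b j := by
      rw [← Finset.sum_neg_distrib]
      exact Finset.sum_congr rfl fun j _ => by rw [Pi.neg_apply, neg_smul]
    rw [h0]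
    exact kumRel_neg h
  have hinj : ∀ z, Rel 0 z → ∀ i, ((p ^ M : ℕ) : ℤ) ∣ z i := by
    intro z h
    refine hsat (p ^ M) z fun γ => ?_
    have h1 := kumRel_inj_easy hpn (hζ M) h γ
    rwa [h19i_sum_apply] at h1
  have hT : ∀ y z, Rel y z → Rel (heckeOperatorBar N ⟨ℓ, hℓ⟩ y) (t ℓ *ᵥ z) := by
    intro y z h
    refine Fermat.Agent.S42x.Heq.H23.h23_kumHecke_of_an (han M) ⟨ℓ, hℓ⟩ hpow y _ _ h
      (h19i_parabolic_sum b hbpar z) ?_
    haveI : Fact ℓ.Prime := ⟨hℓ⟩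
    intro γ σ₀ γ' hc
    rw [h19i_sum_apply]
    simp only [h19i_sum_apply]
    rw [Finset.sum_comm]
    have h1 : ∀ j, ∑ i, z j * b j (Additive.ofMul (⟨γ' i, hc.1 i⟩ : Gamma0 N)) =
        z j * ∑ k, t ℓ k j * b k (Additive.ofMul γ) := by
      intro j
      rw [← Finset.mul_sum, hcos ℓ hℓN γ σ₀ γ' hc j]
    rw [Finset.sum_congr rfl fun j _ => h1 j]
    simp only [Finset.mul_sum, Matrix.mulVec, dotProduct, Finset.sum_mul]
    rw [Finset.sum_comm]
    refine Finset.sum_congr rfl fun k _ => Finset.sum_congr rfl fun j _ => ?_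
    ring
  have hxrel : ∀ j, Rel (x j) (Pi.single j 1) := by
    intro j
    show KumRel N (p ^ M) e (ζ M) (x j) (∑ i, (Pi.single j (1 : ℤ) : Fin r → ℤ) i • b i)
    have h0 : (∑ i, (Pi.single j (1 : ℤ) : Fin r → ℤ) i • b i) = b j := by
      rw [Finset.sum_eq_single j]
      · rw [Pi.single_eq_same, one_smul]
      · intro i _ hij
        rw [Pi.single_eq_of_ne hij, zero_smul]
      · intro h
        exact absurd (Finset.mem_univ j) h
    rw [h0]
    exact hx j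
  have hdvd := h19c_dvd_of_eq Rel hzero hadd hneg ((p ^ M : ℕ) : ℤ) hinj
    (heckeOperatorBar N ⟨ℓ, hℓ⟩) (heckeOperatorBar N ⟨ℓ, hℓ⟩) (t ℓ) (t ℓ) hT hT x hxrel
    (C ((p : ℤ) ^ c') * dickson 1 (ℓ : ℤ) k) (C ((p : ℤ) ^ c' * 2)) hJ
  -- cancel `p ^ c'`
  have hdvd' : ∀ i j, ((p ^ (m + c) : ℕ) : ℤ) ∣
      (aeval (t ℓ) (dickson 1 (ℓ : ℤ) k) - aeval (t ℓ) (C (2 : ℤ))) i j := by
    intro i j
    have h1 := hdvd i j
    have e1 : (aeval (t ℓ) (C ((p : ℤ) ^ c') * dickson 1 (ℓ : ℤ) k) -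
        aeval (t ℓ) (C ((p : ℤ) ^ c' * 2))) i j =
        (p : ℤ) ^ c' * (aeval (t ℓ) (dickson 1 (ℓ : ℤ) k) - aeval (t ℓ) (C (2 : ℤ))) i j := by
      rw [map_mul, C_mul, map_mul (aeval (t ℓ)) (C ((p : ℤ) ^ c')) (C 2), ← mul_sub, aeval_C,
        Algebra.algebraMap_eq_smul_one, smul_mul_assoc, one_mul, Matrix.smul_apply, smul_eq_mul]
    rw [e1] at h1
    have e2 : ((p ^ M : ℕ) : ℤ) = (p : ℤ) ^ c' * ((p ^ (m + c) : ℕ) : ℤ) := by
      rw [hM]
      push_cast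
      ring
    rw [e2] at h1
    have hp0 : (p : ℤ) ^ c' ≠ 0 := pow_ne_zero _ (by exact_mod_cast hp.ne_zero)
    exact (mul_dvd_mul_iff_left hp0).mp h1
  have hfin := hfaith m ℓ hℓ hℓN hℓS ℓ hℓ hℓN hℓS (dickson 1 (ℓ : ℤ) k) (C (2 : ℤ)) hdvd'
  constructor
  · rw [Ideal.mem_span_singleton'] at hfin
    obtain ⟨u, hu⟩ := hfin
    refine ⟨u, ?_⟩
    rw [Fermat.Agent.S31x.H16.dk_eq_dickson, h19i_eval_dickson, mul_comm, hu, aeval_C]
    simp
  · have h1 : (p ^ m : ℕ) ∣ p ^ M := pow_dvd_pow p (by omega)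
    have h2 : ℓ ^ k ≡ 1 [MOD p ^ m] := hmod.of_dvd h1
    have h3 := (Nat.modEq_iff_dvd.mp h2.symm)
    obtain ⟨u, hu⟩ := h3
    refine ⟨u, ?_⟩
    push_cast at hu
    rw [hu]

end

section Final

variable {p : ℕ} {N : ℕ} [NeZero N] {S : Finset ℕ}
  {𝒪 : Type} [CommRing 𝒪] [IsDomain 𝒪] [IsDiscreteValuationRing 𝒪]
  [IsAdicComplete (IsLocalRing.maximalIdeal 𝒪) 𝒪]
  {θ : CuspForm.heckeAlgebra N 2 (↑S : Set ℕ) →+* IsLocalRing.ResidueField 𝒪}
  {T : Type} [CommRing T] [IsLocalRing T] [IsNoetherianRing T]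
  [IsAdicComplete (IsLocalRing.maximalIdeal T) T] [Algebra 𝒪 T] [IsLocalHom (algebraMap 𝒪 T)]
  [Module.Finite 𝒪 T] [Module.Free 𝒪 T]

/-- **(HC-unip) at every inertia element over `q ≠ p`, from (SS) and `StSpec`.** -/
theorem h19u_stHC_of_ss (hSpec : Fermat.Agent.S37x.Asm.StSpec N p) (hp : p.Prime) (hpS : p ∈ S)
    (hNS : ∀ q : ℕ, q.Prime → q ∣ N → q ∈ S) (q : ℕ) (hq : q.Prime) (hqp : q ≠ p)
    (hSS : StSS N p q) (P : ValuationSubring (AlgebraicClosure ℚ)) (hP : P.LiesOverPrime q)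
    (τ : GQ) (hτ : τ ∈ P.inertiaSubgroupIn ℚ) : StHCUnip N p S τ := by
  have hcop : ∀ n : ℕ, Nat.Coprime (p ^ n) q := by
    intro n
    have h1 : ¬ q ∣ p := fun h => hqp ((Nat.prime_dvd_prime_iff_eq hq hp).mp h)
    exact (((Nat.Prime.coprime_iff_not_dvd hq).mpr h1).pow_right n).symm
  exact h19u_stHC_of hp hpS hSpec h19Emb (fun n => h19Zeta (p ^ n))
    (fun n => h19Zeta_prim (p ^ n) (pow_ne_zero n hp.ne_zero))
    (fun n => Fermat.Agent.S42x.Heq.H26.stHeckeAn N (p ^ n) h19Emb (h19Zeta (p ^ n)))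
    (h19_matModel hNS) τ
    (fun n z hz => h5n_inertia_root P hP τ hτ (p ^ n) (hcop n) z hz)
    (hSS P hP τ hτ)

/-- **S34 from (SS) and `StSpec`**: the frozen statement. -/
theorem h19u_s34_of_ss (hSpec : Fermat.Agent.S37x.Asm.StSpec N p) (hp : p.Prime)
    (hp𝒪 : (p : 𝒪) ∈ IsLocalRing.maximalIdeal 𝒪) (hpS : p ∈ S)
    (hNS : ∀ q : ℕ, q.Prime → q ∣ N → q ∈ S)
    (H : CuspForm.HeckeGaloisRepDatum N (↑S : Set ℕ) 𝒪 θ T)
    (q : ℕ) (hq : q.Prime) (hqp : q ≠ p) (hSS : StSS N p q) :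
    H.ρ.IsUnipotentOnInertiaAt q :=
  h19u_unipotent_of_hc hp𝒪 hNS H q
    (fun P hP τ hτ => h19u_stHC_of_ss hSpec hp hpS hNS q hq hqp hSS P hP τ hτ)

end Final

end Fermat.Agent.S34x.Top.H19
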