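import Fermat.Agent.S31x.H16_Top
import Fermat.Prelude.Def_GaloisRep_LocalConditions

/-!
# S34 (W10), formal top (helper19): unipotent inertia from the Hecke congruence at one element

`τ` an element of the absolute Galois group.

* `StHCUnip N p S τ`      : **(HC-unip)** for every `m` there is a number field `K` such that
  every Frobenius power `σ ^ k` (at `ℓ ∉ S`, `ℓ ∤ N`) which agrees with `τ` on `K` satisfies
  `D_k(T_ℓ, ℓ) ≡ 2` and `ℓ ^ k ≡ 1` modulo `p ^ m`;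
* `h19u_det_sub_mem`      : adic continuity of the determinant;
* `h19u_trace_eq_two`, `h19u_det_eq_one` : the trace and the determinant of `ρ(τ)`;
* `h19u_charpoly_of_hc`   : `charpoly ρ(τ) = (X - 1) ^ 2` from `StHCUnip N p S τ`;
* `h19u_unipotent_of_hc`  : the statement of S34 from (HC-unip) at every inertia element.

Inputs: (DENS) `Fermat.Agent.S42x.Dens.H16.dens`, Cayley–Hamilton (`trace_pow_eq_dk`) and adic
continuity (`trace_sub_mem`) of the S31 top.  No trace rigidity is needed.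
-/

set_option autoImplicit false
set_option linter.unusedSectionVars false

open Polynomial

namespace Fermat.Agent.S34x.Top.H19

open Fermat.Agent.S31x.H16

/-- **(HC-unip)** the Hecke congruence at one element `τ`: modulo `p ^ m`, the Dickson value
`D_k(T_ℓ, ℓ)` of every Frobenius power which agrees with `τ` on a suitable number field is `2`,
and `ℓ ^ k` is `1`. -/
def StHCUnip (N p : ℕ) [NeZero N] (S : Finset ℕ)
    (τ : AlgebraicClosure ℚ ≃ₐ[ℚ] AlgebraicClosure ℚ) : Prop :=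
  ∀ m : ℕ, ∃ K : IntermediateField ℚ (AlgebraicClosure ℚ), FiniteDimensional ℚ K ∧
    ∀ (ℓ : ℕ) (hℓ : ℓ.Prime) (hℓN : ¬ ℓ ∣ N) (hℓS : ℓ ∉ (↑S : Set ℕ))
      (A : ValuationSubring (AlgebraicClosure ℚ))
      (σ : AlgebraicClosure ℚ ≃ₐ[ℚ] AlgebraicClosure ℚ) (k : ℕ),
      A.LiesOverPrime ℓ → A.IsFrobeniusAt σ ℓ → (∀ x ∈ K, τ x = (σ ^ k) x) →
      (∃ t : CuspForm.heckeAlgebra N 2 (↑S : Set ℕ),
        dk (CuspForm.heckeAlgebra.T hℓ hℓN hℓS) ((ℓ : ℕ) : CuspForm.heckeAlgebra N 2 (↑S : Set ℕ)) k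
          - 2 = (p : CuspForm.heckeAlgebra N 2 (↑S : Set ℕ)) ^ m * t) ∧
      ∃ u : ℤ, (ℓ : ℤ) ^ k - 1 = (p : ℤ) ^ m * u

section Det

variable {T : Type*} [CommRing T] {V : Type*} [AddCommGroup V] [Module T V]
  [Module.Free T V] [Module.Finite T V]

/-- In rank two, an endomorphism congruent to the identity modulo `I` has determinant
congruent to `1` modulo `I`. -/
theorem h19u_det_sub_one_mem [Nontrivial T] (hV : Module.finrank T V = 2) (I : Ideal T) (f : Module.End T V)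
    (hf : ∀ v, f v - v ∈ I • (⊤ : Submodule T V)) : LinearMap.det f - 1 ∈ I := by
  classical
  let e := Module.finBasisOfFinrankEq T V hV
  have hM : ∀ i j, LinearMap.toMatrix e e f i j - (1 : Matrix (Fin 2) (Fin 2) T) i j ∈ I := by
    intro i j
    have h1 := repr_mem_of_mem_smul_top e I _ (hf (e j)) i
    rw [map_sub, Finsupp.sub_apply] at h1
    rw [LinearMap.toMatrix_apply, Matrix.one_apply]
    have h2 : e.repr (e j) i = if i = j then 1 else 0 := by
      rw [Module.Basis.repr_self, Finsupp.single_apply]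
      by_cases hij : i = j
      · simp [hij]
      · have hji : ¬ j = i := fun h => hij h.symm
        simp [hij, hji]
    rwa [h2] at h1
  rw [← LinearMap.det_toMatrix e f, Matrix.det_fin_two]
  have h00 := hM 0 0
  have h11 := hM 1 1
  have h01 := hM 0 1
  have h10 := hM 1 0
  simp only [Matrix.one_apply_eq, Matrix.one_apply_ne (show (0 : Fin 2) ≠ 1 by decide),
    Matrix.one_apply_ne (show (1 : Fin 2) ≠ 0 by decide), sub_zero] at h00 h11 h01 h10
  set a := LinearMap.toMatrix e e f 0 0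
  set b := LinearMap.toMatrix e e f 0 1
  set c := LinearMap.toMatrix e e f 1 0
  set d := LinearMap.toMatrix e e f 1 1
  have e1 : a * d - b * c - 1 = (a - 1) * d + (d - 1) - b * c := by ring
  rw [e1]
  exact I.sub_mem (I.add_mem (I.mul_mem_right _ h00) h11) (I.mul_mem_right _ h01)

/-- In rank two the characteristic polynomial is `X ^ 2 - tr X + det`. -/
theorem h19u_charpoly_eq [Nontrivial T] (hV : Module.finrank T V = 2) (f : Module.End T V) :
    f.charpoly = X ^ 2 - C (LinearMap.trace T V f) * X + C (LinearMap.det f) := by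
  let e := Module.finBasisOfFinrankEq T V hV
  rw [← LinearMap.charpoly_toMatrix f e, Matrix.charpoly_fin_two,
    LinearMap.trace_eq_matrix_trace T e f, LinearMap.det_toMatrix e f]

/-- The determinant read off from the characteristic polynomial. -/
theorem h19u_det_of_charpoly [Nontrivial T] (hV : Module.finrank T V = 2) (f : Module.End T V)
    (a b : T) (hcp : f.charpoly = X ^ 2 - C a * X + C b) : LinearMap.det f = b := by
  have h1 := h19u_charpoly_eq hV f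
  have h2 := congrArg (fun P : T[X] => P.coeff 0) (h1.symm.trans hcp)
  simp only [coeff_add, coeff_sub, coeff_X_pow, coeff_C_mul, coeff_X_zero, coeff_C_zero] at h2
  norm_num at h2
  exact h2

end Det

section Top

variable {p : ℕ} {N : ℕ} [NeZero N] {S : Finset ℕ}
  {𝒪 : Type} [CommRing 𝒪] [IsDomain 𝒪] [IsDiscreteValuationRing 𝒪]
  [IsAdicComplete (IsLocalRing.maximalIdeal 𝒪) 𝒪]
  {θ : CuspForm.heckeAlgebra N 2 (↑S : Set ℕ) →+* IsLocalRing.ResidueField 𝒪}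
  {T : Type} [CommRing T] [IsLocalRing T] [IsNoetherianRing T]
  [IsAdicComplete (IsLocalRing.maximalIdeal T) T] [Algebra 𝒪 T] [IsLocalHom (algebraMap 𝒪 T)]
  [Module.Finite 𝒪 T] [Module.Free 𝒪 T]

omit [IsNoetherianRing T] [IsAdicComplete (IsLocalRing.maximalIdeal T) T] in
/-- Adic continuity: the determinants of two elements which agree on the level-`m` field agree
modulo `𝔪 ^ m`. -/
theorem h19u_det_sub_mem (ρ : GaloisRepAdic T) (m : ℕ)
    (L : IntermediateField ℚ (AlgebraicClosure ℚ))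
    (hL : ∀ σ : AlgebraicClosure ℚ ≃ₐ[ℚ] AlgebraicClosure ℚ, (∀ x ∈ L, σ x = x) →
      ∀ v : ρ.V, ρ.ρ σ v - v ∈ (IsLocalRing.maximalIdeal T ^ m) • (⊤ : Submodule T ρ.V))
    (g g' : AlgebraicClosure ℚ ≃ₐ[ℚ] AlgebraicClosure ℚ) (hgg' : ∀ x ∈ L, g x = g' x) :
    LinearMap.det (ρ.ρ g) - LinearMap.det (ρ.ρ g') ∈ IsLocalRing.maximalIdeal T ^ m := by
  have hfix : ∀ x ∈ L, (g'⁻¹ * g) x = x := by
    intro x hx
    change g'⁻¹ (g x) = x
    rw [hgg' x hx]
    exact g'.symm_apply_apply x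
  have hg : ρ.ρ g = ρ.ρ g' * ρ.ρ (g'⁻¹ * g) := by
    rw [← map_mul, mul_inv_cancel_left]
  have h1 := h19u_det_sub_one_mem ρ.finrank_eq (IsLocalRing.maximalIdeal T ^ m)
    (ρ.ρ (g'⁻¹ * g)) (hL _ hfix)
  have e : LinearMap.det (ρ.ρ g) - LinearMap.det (ρ.ρ g') =
      LinearMap.det (ρ.ρ g') * (LinearMap.det (ρ.ρ (g'⁻¹ * g)) - 1) := by
    rw [hg, map_mul, mul_sub, mul_one]
  rw [e]
  exact Ideal.mul_mem_left _ _ h1

/-- `p` lies in the maximal ideal of `T`. -/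
theorem h19u_p_mem (hp𝒪 : (p : 𝒪) ∈ IsLocalRing.maximalIdeal 𝒪) :
    (p : T) ∈ IsLocalRing.maximalIdeal T := by
  rw [IsLocalRing.mem_maximalIdeal, mem_nonunits_iff]
  intro hu
  have h1 : IsUnit (algebraMap 𝒪 T (p : 𝒪)) := by rwa [map_natCast]
  have h2 : IsUnit (p : 𝒪) := isUnit_of_map_unit (algebraMap 𝒪 T) _ h1
  exact (IsLocalRing.mem_maximalIdeal _).mp hp𝒪 h2

/-- **Trace and determinant of `ρ(τ)` from (HC-unip).** -/
theorem h19u_trace_det_of_hc (hp𝒪 : (p : 𝒪) ∈ IsLocalRing.maximalIdeal 𝒪)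
    (hNS : ∀ q : ℕ, q.Prime → q ∣ N → q ∈ S)
    (H : CuspForm.HeckeGaloisRepDatum N (↑S : Set ℕ) 𝒪 θ T)
    (τ : AlgebraicClosure ℚ ≃ₐ[ℚ] AlgebraicClosure ℚ) (hHC : StHCUnip N p S τ) :
    LinearMap.trace T H.ρ.V (H.ρ.ρ τ) = 2 ∧ LinearMap.det (H.ρ.ρ τ) = 1 := by
  have hpT : (p : T) ∈ IsLocalRing.maximalIdeal T := h19u_p_mem hp𝒪
  have key : ∀ m : ℕ,
      LinearMap.trace T H.ρ.V (H.ρ.ρ τ) - 2 ∈ IsLocalRing.maximalIdeal T ^ m ∧
      LinearMap.det (H.ρ.ρ τ) - 1 ∈ IsLocalRing.maximalIdeal T ^ m := by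
    intro m
    obtain ⟨K, hK, hHCm⟩ := hHC m
    obtain ⟨L, hLfin, hL⟩ := H.ρ.isAdicContinuous m
    have : FiniteDimensional ℚ ↥(K ⊔ L) := IntermediateField.finiteDimensional_sup K L
    obtain ⟨ℓ, A, σ, k, hℓ, hℓS, hA, hσ, hg⟩ := Fermat.Agent.S42x.Dens.H16.dens (K ⊔ L) S τ
    have hℓN : ¬ ℓ ∣ N := fun h => hℓS (hNS ℓ hℓ h)
    have hℓS' : ℓ ∉ (↑S : Set ℕ) := fun h => hℓS (Finset.mem_coe.mp h)
    obtain ⟨⟨t, ht⟩, ⟨u, hu⟩⟩ := hHCm ℓ hℓ hℓN hℓS' A σ k hA hσ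
      (fun x hx => hg x ((le_sup_left : K ≤ K ⊔ L) hx))
    have hcp := H.charpoly_frob ℓ hℓ hℓN hℓS' A hA σ hσ
    constructor
    · -- the trace
      have c1 := trace_sub_mem H.ρ m L hL τ (σ ^ k)
        (fun x hx => hg x ((le_sup_right : L ≤ K ⊔ L) hx))
      have d1 : LinearMap.trace T H.ρ.V (H.ρ.ρ (σ ^ k)) =
          H.π (dk (CuspForm.heckeAlgebra.T hℓ hℓN hℓS')
            ((ℓ : ℕ) : CuspForm.heckeAlgebra N 2 (↑S : Set ℕ)) k) := by
        rw [map_pow, map_dk, map_natCast]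
        exact trace_pow_eq_dk H.ρ.finrank_eq _ _ _ hcp k
      have e1 : H.π (dk (CuspForm.heckeAlgebra.T hℓ hℓN hℓS')
            ((ℓ : ℕ) : CuspForm.heckeAlgebra N 2 (↑S : Set ℕ)) k) - 2 ∈
          IsLocalRing.maximalIdeal T ^ m := by
        have h2 : (2 : T) = H.π 2 := by rw [map_ofNat]
        rw [h2, ← map_sub, ht, map_mul, map_pow, map_natCast]
        exact Ideal.mul_mem_right _ _ (Ideal.pow_mem_pow hpT m)
      rw [d1] at c1
      have e : LinearMap.trace T H.ρ.V (H.ρ.ρ τ) - 2 =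
          (LinearMap.trace T H.ρ.V (H.ρ.ρ τ) -
            H.π (dk (CuspForm.heckeAlgebra.T hℓ hℓN hℓS')
              ((ℓ : ℕ) : CuspForm.heckeAlgebra N 2 (↑S : Set ℕ)) k))
          + (H.π (dk (CuspForm.heckeAlgebra.T hℓ hℓN hℓS')
              ((ℓ : ℕ) : CuspForm.heckeAlgebra N 2 (↑S : Set ℕ)) k) - 2) := by ring
      rw [e]
      exact Ideal.add_mem _ c1 e1
    · -- the determinant
      have c1 := h19u_det_sub_mem H.ρ m L hL τ (σ ^ k)
        (fun x hx => hg x ((le_sup_right : L ≤ K ⊔ L) hx))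
      have d0 : LinearMap.det (H.ρ.ρ σ) = (ℓ : T) :=
        h19u_det_of_charpoly H.ρ.finrank_eq _ _ _ hcp
      have d1 : LinearMap.det (H.ρ.ρ (σ ^ k)) = (ℓ : T) ^ k := by
        rw [map_pow, map_pow, d0]
      have e1 : (ℓ : T) ^ k - 1 ∈ IsLocalRing.maximalIdeal T ^ m := by
        have h3 : ((ℓ : T) ^ k - 1) = (((ℓ : ℤ) ^ k - 1 : ℤ) : T) := by push_cast; ring
        rw [h3, hu]
        push_cast
        exact Ideal.mul_mem_right _ _ (Ideal.pow_mem_pow hpT m)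
      rw [d1] at c1
      have e : LinearMap.det (H.ρ.ρ τ) - 1 =
          (LinearMap.det (H.ρ.ρ τ) - (ℓ : T) ^ k) + ((ℓ : T) ^ k - 1) := by ring
      rw [e]
      exact Ideal.add_mem _ c1 e1
  have hH : IsHausdorff (IsLocalRing.maximalIdeal T) T := inferInstance
  constructor
  · have h0 := hH.haus' _ (fun m => by
      rw [SModEq.zero, smul_eq_mul, Ideal.mul_top]
      exact (key m).1)
    exact sub_eq_zero.mp h0
  · have h0 := hH.haus' _ (fun m => by
      rw [SModEq.zero, smul_eq_mul, Ideal.mul_top]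
      exact (key m).2)
    exact sub_eq_zero.mp h0

/-- **`charpoly ρ(τ) = (X - 1) ^ 2` from (HC-unip).** -/
theorem h19u_charpoly_of_hc (hp𝒪 : (p : 𝒪) ∈ IsLocalRing.maximalIdeal 𝒪)
    (hNS : ∀ q : ℕ, q.Prime → q ∣ N → q ∈ S)
    (H : CuspForm.HeckeGaloisRepDatum N (↑S : Set ℕ) 𝒪 θ T)
    (τ : AlgebraicClosure ℚ ≃ₐ[ℚ] AlgebraicClosure ℚ) (hHC : StHCUnip N p S τ) :
    LinearMap.charpoly (H.ρ.ρ τ) = (X - 1) ^ 2 := by
  obtain ⟨htr, hdet⟩ := h19u_trace_det_of_hc hp𝒪 hNS H τ hHC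
  rw [h19u_charpoly_eq H.ρ.finrank_eq, htr, hdet]
  simp only [map_ofNat, map_one]
  ring

/-- **S34 from (HC-unip)** at every inertia element over `q`. -/
theorem h19u_unipotent_of_hc (hp𝒪 : (p : 𝒪) ∈ IsLocalRing.maximalIdeal 𝒪)
    (hNS : ∀ q : ℕ, q.Prime → q ∣ N → q ∈ S)
    (H : CuspForm.HeckeGaloisRepDatum N (↑S : Set ℕ) 𝒪 θ T) (q : ℕ)
    (hHC : ∀ P : ValuationSubring (AlgebraicClosure ℚ), P.LiesOverPrime q →
      ∀ τ ∈ P.inertiaSubgroupIn ℚ, StHCUnip N p S τ) :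
    H.ρ.IsUnipotentOnInertiaAt q :=
  fun P hP τ hτ => h19u_charpoly_of_hc hp𝒪 hNS H τ (hHC P hP τ hτ)

end Top

end Fermat.Agent.S34x.Top.H19
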